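import Mathlib
import Fermat.Prelude.Def_GoodReductionJacobian_RelativeGroupLawKernel

/-!
# Row S26, block SOFT, leaves S1a, S3, S4 (helper746): `[n]` is finite etale

`A` a scheme over a field `K` with a group law `L` on its functor of points, `n` invertible in `K`.
* `kerRed_unique_div` (S3-KEY): for a square-zero thickening `Spec S ⟶ Spec R` the kernel of
  reduction `A(R) → A(S)` is uniquely `n`-divisible (any `A`, any group law).
  No differentials, no local rings: points of the kernel land in an affine open neighbourhood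
  `U = Spec R₀` of the zero point, so they are ring homs `R₀ → R` congruent to the constant hom
  modulo the square-zero ideal; the group law on them is computed by the universal pair of
  points over the auxiliary ring `Aux ⊆ K × R × R` (`ZeroChart.mul_pt`).
* `formallyUnramified_schemeNsmul` : `[n]` is formally unramified (`L` commutative);
* `etale_schemeNsmul` (S3) : `[n]` is etale if moreover `A` is smooth over `K`;
* `isFinite_schemeNsmul` (S4) : `[n]` is finite if moreover `A` is proper over `K`.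
-/

set_option autoImplicit false
universe u

open CategoryTheory CategoryTheory.Limits AlgebraicGeometry NeronModelInfra GoodReductionJacobian

namespace Fermat.Agent.S26.Soft.H746

/-! # Part 1: square-zero ring calculus -/

section Alg

variable {K R₀ R S : Type u} [CommRing K] [CommRing R₀] [CommRing R] [CommRing S]
  (ev : R₀ →+* K) (τ : K →+* R) (φ : R →+* S)

/-- `ψ` is congruent to the constant hom `τ ∘ ev` modulo `ker φ`. -/
def IsInf (ψ : R₀ →+* R) : Prop := ∀ r, φ (ψ r) = φ (τ (ev r))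

/-- The kernel of `φ` has square zero (elementwise form). -/
def SqZero : Prop := ∀ a b : R, φ a = 0 → φ b = 0 → a * b = 0

variable {ev τ φ}

theorem sqZero_of_ker_sq (h : RingHom.ker φ ^ 2 = ⊥) : SqZero φ := by
  intro a b ha hb
  have : a * b ∈ RingHom.ker φ ^ 2 := by
    rw [pow_two]
    exact Ideal.mul_mem_mul ((RingHom.mem_ker).2 ha) ((RingHom.mem_ker).2 hb)
  rwa [h, Ideal.mem_bot] at this

theorem IsInf.sub_mem {ψ : R₀ →+* R} (h : IsInf ev τ φ ψ) (r : R₀) :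
    φ (ψ r - τ (ev r)) = 0 := by
  rw [map_sub, h r, sub_self]

/-- The "sum" of two infinitesimal homs. -/
def addHom (hφ : SqZero φ) (ψ₁ ψ₂ : R₀ →+* R) (h₁ : IsInf ev τ φ ψ₁) (h₂ : IsInf ev τ φ ψ₂) :
    R₀ →+* R where
  toFun r := ψ₁ r + ψ₂ r - τ (ev r)
  map_one' := by simp
  map_zero' := by simp
  map_add' a b := by simp only [map_add]; ring
  map_mul' a b := by
    have e₃ := hφ _ _ (h₁.sub_mem a) (h₂.sub_mem b)
    have e₄ := hφ _ _ (h₂.sub_mem a) (h₁.sub_mem b)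
    simp only [map_mul]
    linear_combination (-1 : R) * e₃ - e₄

@[simp] theorem addHom_apply (hφ : SqZero φ) (ψ₁ ψ₂ : R₀ →+* R) (h₁ : IsInf ev τ φ ψ₁)
    (h₂ : IsInf ev τ φ ψ₂) (r : R₀) :
    addHom hφ ψ₁ ψ₂ h₁ h₂ r = ψ₁ r + ψ₂ r - τ (ev r) := rfl

/-- Scaling an infinitesimal hom by a constant `c`. -/
def scaleHom (hφ : SqZero φ) (ψ : R₀ →+* R) (h : IsInf ev τ φ ψ) (c : K) : R₀ →+* R where
  toFun r := τ (ev r) + τ c * (ψ r - τ (ev r))
  map_one' := by simp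
  map_zero' := by simp
  map_add' a b := by simp only [map_add]; ring
  map_mul' a b := by
    have e₁ := hφ _ _ (h.sub_mem a) (h.sub_mem b)
    simp only [map_mul]
    linear_combination (τ c - τ c * τ c) * e₁

@[simp] theorem scaleHom_apply (hφ : SqZero φ) (ψ : R₀ →+* R) (h : IsInf ev τ φ ψ) (c : K)
    (r : R₀) : scaleHom hφ ψ h c r = τ (ev r) + τ c * (ψ r - τ (ev r)) := rfl

theorem isInf_const : IsInf ev τ φ (τ.comp ev) := fun _ => rfl

theorem isInf_addHom (hφ : SqZero φ) (ψ₁ ψ₂ : R₀ →+* R) (h₁ : IsInf ev τ φ ψ₁)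
    (h₂ : IsInf ev τ φ ψ₂) : IsInf ev τ φ (addHom hφ ψ₁ ψ₂ h₁ h₂) := by
  intro r
  simp only [addHom_apply, map_sub, map_add, h₁ r, h₂ r]
  ring

theorem isInf_scaleHom (hφ : SqZero φ) (ψ : R₀ →+* R) (h : IsInf ev τ φ ψ) (c : K) :
    IsInf ev τ φ (scaleHom hφ ψ h c) := by
  intro r
  simp only [scaleHom_apply, map_add, map_mul, map_sub, h r, sub_self, mul_zero, add_zero]

theorem scaleHom_one (hφ : SqZero φ) (ψ : R₀ →+* R) (h : IsInf ev τ φ ψ) :
    scaleHom hφ ψ h 1 = ψ := by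
  ext r; simp

theorem scaleHom_zero (hφ : SqZero φ) (ψ : R₀ →+* R) (h : IsInf ev τ φ ψ) :
    scaleHom hφ ψ h 0 = τ.comp ev := by
  ext r; simp

theorem addHom_scaleHom (hφ : SqZero φ) (ψ : R₀ →+* R) (h : IsInf ev τ φ ψ) (c c' : K) :
    addHom hφ (scaleHom hφ ψ h c) (scaleHom hφ ψ h c') (isInf_scaleHom hφ ψ h c)
      (isInf_scaleHom hφ ψ h c') = scaleHom hφ ψ h (c + c') := by
  ext r; simp only [addHom_apply, scaleHom_apply, map_add]; ring

theorem addHom_scaleHom_self (hφ : SqZero φ) (ψ : R₀ →+* R) (h : IsInf ev τ φ ψ) (c : K) :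
    addHom hφ (scaleHom hφ ψ h c) ψ (isInf_scaleHom hφ ψ h c) h = scaleHom hφ ψ h (c + 1) := by
  ext r; simp only [addHom_apply, scaleHom_apply, map_add, map_one]; ring

theorem scaleHom_congr (hφ : SqZero φ) {ψ ψ' : R₀ →+* R} (h : IsInf ev τ φ ψ)
    (h' : IsInf ev τ φ ψ') (e : ψ = ψ') (c : K) : scaleHom hφ ψ h c = scaleHom hφ ψ' h' c := by
  subst e; rfl

theorem scaleHom_scaleHom (hφ : SqZero φ) (ψ : R₀ →+* R) (h : IsInf ev τ φ ψ) (c c' : K) :
    scaleHom hφ (scaleHom hφ ψ h c) (isInf_scaleHom hφ ψ h c) c' = scaleHom hφ ψ h (c' * c) := by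
  ext r; simp only [scaleHom_apply, map_mul]; ring

theorem scaleHom_injective (hφ : SqZero φ) {ψ ψ' : R₀ →+* R} (h : IsInf ev τ φ ψ)
    (h' : IsInf ev τ φ ψ') {c : K} (hc : IsUnit c)
    (heq : scaleHom hφ ψ h c = scaleHom hφ ψ' h' c) : ψ = ψ' := by
  obtain ⟨u, rfl⟩ := hc
  have := congrArg (fun χ => scaleHom hφ χ.1 χ.2 (↑u⁻¹ : K))
    (Subtype.ext heq : (⟨_, isInf_scaleHom hφ ψ h u⟩ : {χ // IsInf ev τ φ χ}) =
      ⟨_, isInf_scaleHom hφ ψ' h' u⟩)
  simpa [scaleHom_scaleHom, scaleHom_one] using this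

theorem scaleHom_comp_of_comp {κ : K →+* R₀} (hκ : ev.comp κ = RingHom.id K)
    (hφ : SqZero φ) (ψ : R₀ →+* R) (h : IsInf ev τ φ ψ) (hψ : ψ.comp κ = τ) (c : K) :
    (scaleHom hφ ψ h c).comp κ = τ := by
  ext a
  have h1 : ev (κ a) = a := congrArg (fun g => g a) hκ
  have h2 : ψ (κ a) = τ a := congrArg (fun g => g a) hψ
  simp [h1, h2]

theorem addHom_comp_of_comp {κ : K →+* R₀} (hκ : ev.comp κ = RingHom.id K)
    (hφ : SqZero φ) (ψ₁ ψ₂ : R₀ →+* R) (h₁ : IsInf ev τ φ ψ₁) (h₂ : IsInf ev τ φ ψ₂)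
    (hψ₁ : ψ₁.comp κ = τ) (hψ₂ : ψ₂.comp κ = τ) :
    (addHom hφ ψ₁ ψ₂ h₁ h₂).comp κ = τ := by
  ext a
  have h0 : ev (κ a) = a := congrArg (fun g => g a) hκ
  have h1 : ψ₁ (κ a) = τ a := congrArg (fun g => g a) hψ₁
  have h2 : ψ₂ (κ a) = τ a := congrArg (fun g => g a) hψ₂
  simp [h0, h1, h2]

/-! ### The auxiliary ring -/

variable (τ φ) in
/-- The auxiliary ring `{(c, a, b) | a ≡ τ c ≡ b mod ker φ} ⊆ K × R × R`. -/
def Aux : Subring (K × R × R) :=
  RingHom.eqLocus (φ.comp ((RingHom.fst R R).comp (RingHom.snd K (R × R))))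
      (φ.comp (τ.comp (RingHom.fst K (R × R)))) ⊓
    RingHom.eqLocus (φ.comp ((RingHom.snd R R).comp (RingHom.snd K (R × R))))
      (φ.comp (τ.comp (RingHom.fst K (R × R))))

theorem mem_aux {z : K × R × R} :
    z ∈ Aux τ φ ↔ φ z.2.1 = φ (τ z.1) ∧ φ z.2.2 = φ (τ z.1) := Iff.rfl

variable (τ φ) in
/-- `Aux → K`. -/
def auxFst : Aux τ φ →+* K := (RingHom.fst K (R × R)).comp (Aux τ φ).subtype

variable (τ φ) in
/-- First projection `Aux → R`. -/
def auxP₁ : Aux τ φ →+* R :=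
  ((RingHom.fst R R).comp (RingHom.snd K (R × R))).comp (Aux τ φ).subtype

variable (τ φ) in
/-- Second projection `Aux → R`. -/
def auxP₂ : Aux τ φ →+* R :=
  ((RingHom.snd R R).comp (RingHom.snd K (R × R))).comp (Aux τ φ).subtype

variable (τ φ) in
/-- The structure map `K → Aux`. -/
def auxStr : K →+* Aux τ φ :=
  ((RingHom.id K).prod (τ.prod τ)).codRestrict (Aux τ φ) fun c => by
    rw [mem_aux]; exact ⟨rfl, rfl⟩

/-- A triple of homs into `Aux`. -/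
def auxMk (χ₁ χ₂ : R₀ →+* R) (h₁ : IsInf ev τ φ χ₁) (h₂ : IsInf ev τ φ χ₂) :
    R₀ →+* Aux τ φ :=
  (ev.prod (χ₁.prod χ₂)).codRestrict (Aux τ φ) fun r => by
    rw [mem_aux]; exact ⟨h₁ r, h₂ r⟩

@[simp] theorem auxFst_auxMk (χ₁ χ₂ : R₀ →+* R) (h₁ : IsInf ev τ φ χ₁)
    (h₂ : IsInf ev τ φ χ₂) : (auxFst τ φ).comp (auxMk χ₁ χ₂ h₁ h₂) = ev := rfl

@[simp] theorem auxP₁_auxMk (χ₁ χ₂ : R₀ →+* R) (h₁ : IsInf ev τ φ χ₁)
    (h₂ : IsInf ev τ φ χ₂) : (auxP₁ τ φ).comp (auxMk χ₁ χ₂ h₁ h₂) = χ₁ := rfl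

@[simp] theorem auxP₂_auxMk (χ₁ χ₂ : R₀ →+* R) (h₁ : IsInf ev τ φ χ₁)
    (h₂ : IsInf ev τ φ χ₂) : (auxP₂ τ φ).comp (auxMk χ₁ χ₂ h₁ h₂) = χ₂ := rfl

@[simp] theorem auxFst_auxStr : (auxFst τ φ).comp (auxStr τ φ) = RingHom.id K := rfl

@[simp] theorem auxP₁_auxStr : (auxP₁ τ φ).comp (auxStr τ φ) = τ := rfl

@[simp] theorem auxP₂_auxStr : (auxP₂ τ φ).comp (auxStr τ φ) = τ := rfl

theorem auxMk_comp {κ : K →+* R₀} (hκ : ev.comp κ = RingHom.id K) (χ₁ χ₂ : R₀ →+* R)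
    (h₁ : IsInf ev τ φ χ₁) (h₂ : IsInf ev τ φ χ₂) (hχ₁ : χ₁.comp κ = τ) (hχ₂ : χ₂.comp κ = τ) :
    (auxMk χ₁ χ₂ h₁ h₂).comp κ = auxStr τ φ := by
  ext a
  · exact congrArg (fun g => g a) hκ
  · exact congrArg (fun g => g a) hχ₁
  · exact congrArg (fun g => g a) hχ₂

/-- Homs into `Aux` are determined by their three components. -/
theorem aux_hom_ext {B : Type u} [CommRing B] {α β : B →+* Aux τ φ}
    (h₀ : (auxFst τ φ).comp α = (auxFst τ φ).comp β)
    (h₁ : (auxP₁ τ φ).comp α = (auxP₁ τ φ).comp β)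
    (h₂ : (auxP₂ τ φ).comp α = (auxP₂ τ φ).comp β) : α = β := by
  ext b
  · exact congrArg (fun g => g b) h₀
  · exact congrArg (fun g => g b) h₁
  · exact congrArg (fun g => g b) h₂

theorem auxFst_surjective : Function.Surjective (auxFst τ φ) := fun c =>
  ⟨auxStr τ φ c, rfl⟩

theorem auxFst_sqZero (hφ : SqZero φ) : SqZero (auxFst τ φ) := by
  rintro ⟨⟨c, a, b⟩, hz⟩ ⟨⟨c', a', b'⟩, hz'⟩ hc hc'
  rw [mem_aux] at hz hz'
  change c = 0 at hc
  change c' = 0 at hc'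
  subst hc hc'
  simp only [map_zero] at hz hz'
  ext
  · simp
  · exact hφ _ _ hz.1 hz'.1
  · exact hφ _ _ hz.2 hz'.2

variable (τ φ) in
/-- The "sum" map `Aux → R`, `(c, a, b) ↦ a + b - τ c`. -/
def auxSum (hφ : SqZero φ) : Aux τ φ →+* R where
  toFun z := z.1.2.1 + z.1.2.2 - τ z.1.1
  map_one' := by simp
  map_zero' := by simp
  map_add' z w := by
    simp only [Subring.coe_add, Prod.fst_add, Prod.snd_add, map_add]; ring
  map_mul' := by
    rintro ⟨⟨c, a, b⟩, hz⟩ ⟨⟨c', a', b'⟩, hz'⟩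
    rw [mem_aux] at hz hz'
    have ha : φ (a - τ c) = 0 := by rw [map_sub, hz.1, sub_self]
    have hb : φ (b - τ c) = 0 := by rw [map_sub, hz.2, sub_self]
    have ha' : φ (a' - τ c') = 0 := by rw [map_sub, hz'.1, sub_self]
    have hb' : φ (b' - τ c') = 0 := by rw [map_sub, hz'.2, sub_self]
    have e₁ := hφ _ _ ha hb'
    have e₂ := hφ _ _ hb ha'
    simp only [Subring.coe_mul, Prod.mk_mul_mk, map_mul]
    linear_combination (-1 : R) * e₁ - e₂

theorem auxSum_auxMk (hφ : SqZero φ) (χ₁ χ₂ : R₀ →+* R) (h₁ : IsInf ev τ φ χ₁)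
    (h₂ : IsInf ev τ φ χ₂) :
    (auxSum τ φ hφ).comp (auxMk χ₁ χ₂ h₁ h₂) = addHom hφ χ₁ χ₂ h₁ h₂ := rfl

theorem auxSum_auxStr (hφ : SqZero φ) : (auxSum τ φ hφ).comp (auxStr τ φ) = τ := by
  ext c
  change τ c + τ c - τ c = τ c
  ring

theorem addHom_const_right (hφ : SqZero φ) (ψ : R₀ →+* R) (h : IsInf ev τ φ ψ) :
    addHom hφ ψ (τ.comp ev) h isInf_const = ψ := by
  ext r; simp

theorem addHom_const_left (hφ : SqZero φ) (ψ : R₀ →+* R) (h : IsInf ev τ φ ψ) :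
    addHom hφ (τ.comp ev) ψ isInf_const h = ψ := by
  ext r; simp

end Alg


/-! # Part 2: the kernel of reduction -/

noncomputable section

/-! ## Points of a scheme landing in an affine open -/

section AffPt

variable {A : Scheme.{u}} {V : A.Opens}

/-- The `R`-valued point of `A` given by a ring hom `Γ(A, V) ⟶ R`, `V` affine open. -/
def ptOf (hV : IsAffineOpen V) {R : CommRingCat.{u}} (ψ : Γ(A, V) ⟶ R) : Spec R ⟶ A :=
  Spec.map ψ ≫ hV.fromSpec

theorem ptOf_injective (hV : IsAffineOpen V) {R : CommRingCat.{u}} :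
    Function.Injective (ptOf hV (R := R)) := by
  intro ψ ψ' h
  exact Spec.map_injective ((cancel_mono hV.fromSpec).1 h)

theorem map_comp_ptOf (hV : IsAffineOpen V) {R R' : CommRingCat.{u}} (ψ : Γ(A, V) ⟶ R)
    (h : R ⟶ R') : Spec.map h ≫ ptOf hV ψ = ptOf hV (ψ ≫ h) := by
  rw [ptOf, ptOf, Spec.map_comp, Category.assoc]

theorem ptOf_mem (hV : IsAffineOpen V) {R : CommRingCat.{u}} (ψ : Γ(A, V) ⟶ R) (p : Spec R) :
    ptOf hV ψ p ∈ V := by
  have : ptOf hV ψ p ∈ Set.range hV.fromSpec := ⟨Spec.map ψ p, rfl⟩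
  rw [hV.range_fromSpec] at this
  exact this

theorem exists_eq_ptOf (hV : IsAffineOpen V) {R : CommRingCat.{u}} (g : Spec R ⟶ A)
    (hg : ∀ p, g p ∈ V) : ∃ ψ : Γ(A, V) ⟶ R, g = ptOf hV ψ := by
  have hr : Set.range g ⊆ Set.range hV.fromSpec := by
    rw [hV.range_fromSpec]
    rintro _ ⟨p, rfl⟩
    exact hg p
  refine ⟨Spec.preimage (IsOpenImmersion.lift hV.fromSpec g hr), ?_⟩
  rw [ptOf, Spec.map_preimage, IsOpenImmersion.lift_fac]

/-- `Spec S ⟶ Spec R` is surjective for a surjection `R → S` with square-zero kernel. -/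
theorem surjective_specMap_of_sq_zero {R S : CommRingCat.{u}} (φ : R ⟶ S)
    (hφ : Function.Surjective φ.hom) (hI : RingHom.ker φ.hom ^ 2 = ⊥) :
    Function.Surjective (Spec.map φ) := by
  intro p
  have hp : p.asIdeal.IsPrime := p.isPrime
  have hker : RingHom.ker φ.hom ≤ p.asIdeal := by
    apply Ideal.IsPrime.le_of_pow_le (n := 2)
    rw [hI]; exact bot_le
  have hprime : (p.asIdeal.map φ.hom).IsPrime := Ideal.map_isPrime_of_surjective hφ hker
  refine ⟨⟨p.asIdeal.map φ.hom, hprime⟩, ?_⟩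
  apply PrimeSpectrum.ext
  change (p.asIdeal.map φ.hom).comap φ.hom = p.asIdeal
  rw [Ideal.comap_map_of_surjective _ hφ]
  exact sup_eq_left.2 hker

/-- A point of `A` over a square-zero thickening lands in `V` as soon as its reduction does. -/
theorem exists_eq_ptOf_of_thickening (hV : IsAffineOpen V) {R S : CommRingCat.{u}} (φ : R ⟶ S)
    (hφ : Function.Surjective φ.hom) (hI : RingHom.ker φ.hom ^ 2 = ⊥) (g : Spec R ⟶ A)
    (hg : ∀ q, (Spec.map φ ≫ g) q ∈ V) : ∃ ψ : Γ(A, V) ⟶ R, g = ptOf hV ψ := by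
  refine exists_eq_ptOf hV g fun p => ?_
  obtain ⟨q, rfl⟩ := surjective_specMap_of_sq_zero φ hφ hI p
  exact hg q

end AffPt

/-! ## Group calculus -/

section Group

variable {K : Type u} [Field K] {A : Scheme.{u}} {f : A ⟶ Spec (CommRingCat.of K)}
  (L : RelativeGroupLaw K f)

/-- S1a: `[n] ∘ x = n • x` on `T`-valued points. -/
theorem comp_schemeNsmul {T : Scheme.{u}} (t : T ⟶ Spec (CommRingCat.of K)) (n : ℕ)
    (x : SchemeHomOver t f) : x.1 ≫ L.schemeNsmul n = (L.nsmul t n x).1 := by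
  have h := L.nsmul_natural f t x.1 x.2 n RelativeGroupLaw.idPoint
  have h2 : schemeHomOverComp x.1 x.2 (RelativeGroupLaw.idPoint (f := f)) = x :=
    Subtype.ext (Category.comp_id _)
  rw [h2] at h
  exact congrArg Subtype.val h

theorem one_val {T : Scheme.{u}} (t : T ⟶ Spec (CommRingCat.of K)) :
    (L.one t).1 = t ≫ (L.one (𝟙 (Spec (CommRingCat.of K)))).1 :=
  (congrArg Subtype.val (L.one_natural (𝟙 _) t t (Category.comp_id t))).symm

/-- The kernel of reduction along `Spec S ⟶ Spec R`. -/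
def kerRed {R S : CommRingCat.{u}} (φ : R ⟶ S) (t : Spec R ⟶ Spec (CommRingCat.of K)) :
    Set (SchemeHomOver t f) :=
  {x | schemeHomOverComp (Spec.map φ) rfl x = L.one (Spec.map φ ≫ t)}

theorem mem_kerRed_iff {R S : CommRingCat.{u}} (φ : R ⟶ S)
    (t : Spec R ⟶ Spec (CommRingCat.of K)) (x : SchemeHomOver t f) :
    x ∈ kerRed L φ t ↔ Spec.map φ ≫ x.1 = (L.one (Spec.map φ ≫ t)).1 :=
  Subtype.ext_iff

/-- An affine chart around the zero point. -/
structure ZeroChart where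
  /-- an affine open neighbourhood of the zero point -/
  U : A.Opens
  hU : IsAffineOpen U
  /-- evaluation at the zero point -/
  ev : Γ(A, U) ⟶ CommRingCat.of K
  /-- the `K`-algebra structure of `Γ(A, U)` -/
  κ : CommRingCat.of K ⟶ Γ(A, U)
  hev : ptOf hU ev = (L.one (𝟙 (Spec (CommRingCat.of K)))).1
  hκ : Spec.map κ = hU.fromSpec ≫ f

theorem exists_zeroChart : Nonempty (ZeroChart L) := by
  let e := (L.one (𝟙 (Spec (CommRingCat.of K)))).1
  let x₀ : A := e default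
  obtain ⟨_, ⟨U, hU, rfl⟩, hxU, -⟩ :=
    A.isBasis_affineOpens.exists_subset_of_mem_open (Set.mem_univ x₀) isOpen_univ
  have hmem : ∀ p, e p ∈ U := fun p => by
    rw [Subsingleton.elim p default]; exact hxU
  obtain ⟨ev, hev⟩ := exists_eq_ptOf hU e hmem
  exact ⟨⟨U, hU, ev, Spec.preimage (hU.fromSpec ≫ f), hev.symm, Spec.map_preimage _⟩⟩

variable {L}

namespace ZeroChart

variable (Z : ZeroChart L)

theorem κ_ev : Z.κ ≫ Z.ev = 𝟙 _ := by
  apply Spec.map_injective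
  rw [Spec.map_comp, Z.hκ, ← Category.assoc, ← ptOf, Z.hev, Spec.map_id]
  exact (L.one (𝟙 (Spec (CommRingCat.of K)))).2

theorem ptOf_comp_f {R : CommRingCat.{u}} (ψ : Γ(A, Z.U) ⟶ R) :
    ptOf Z.hU ψ ≫ f = Spec.map (Z.κ ≫ ψ) := by
  rw [ptOf, Category.assoc, ← Z.hκ, ← Spec.map_comp]

/-- The point of `A` over `Spec.map τ` given by a `K`-algebra hom `Γ(A, U) ⟶ R`. -/
def pt {R : CommRingCat.{u}} (τ : CommRingCat.of K ⟶ R) (ψ : Γ(A, Z.U) ⟶ R)
    (h : Z.κ ≫ ψ = τ) : SchemeHomOver (Spec.map τ) f :=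
  ⟨ptOf Z.hU ψ, by rw [Z.ptOf_comp_f, h]⟩

@[simp] theorem pt_val {R : CommRingCat.{u}} (τ : CommRingCat.of K ⟶ R) (ψ : Γ(A, Z.U) ⟶ R)
    (h : Z.κ ≫ ψ = τ) : (Z.pt τ ψ h).1 = ptOf Z.hU ψ := rfl

theorem pt_injective {R : CommRingCat.{u}} (τ : CommRingCat.of K ⟶ R)
    {ψ ψ' : Γ(A, Z.U) ⟶ R} {h : Z.κ ≫ ψ = τ} {h' : Z.κ ≫ ψ' = τ}
    (e : Z.pt τ ψ h = Z.pt τ ψ' h') : ψ = ψ' :=
  ptOf_injective Z.hU (congrArg Subtype.val e)

theorem κ_ev_comp {R : CommRingCat.{u}} (τ : CommRingCat.of K ⟶ R) :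
    Z.κ ≫ Z.ev ≫ τ = τ := by
  rw [← Category.assoc, Z.κ_ev, Category.id_comp]

theorem one_val {R : CommRingCat.{u}} (τ : CommRingCat.of K ⟶ R) :
    (L.one (Spec.map τ)).1 = ptOf Z.hU (Z.ev ≫ τ) := by
  rw [H746.one_val, ← Z.hev, map_comp_ptOf]

theorem one_eq {R : CommRingCat.{u}} (τ : CommRingCat.of K ⟶ R) :
    L.one (Spec.map τ) = Z.pt τ (Z.ev ≫ τ) (Z.κ_ev_comp τ) :=
  Subtype.ext (Z.one_val τ)

/-- Push-forward of a chart point along a ring hom. -/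
theorem comp_pt {R R' : CommRingCat.{u}} (τ : CommRingCat.of K ⟶ R) (ψ : Γ(A, Z.U) ⟶ R)
    (h : Z.κ ≫ ψ = τ) (g : R ⟶ R') (τ' : CommRingCat.of K ⟶ R') (hg : τ ≫ g = τ') :
    schemeHomOverComp (Spec.map g) (by rw [← Spec.map_comp, hg]) (Z.pt τ ψ h) =
      Z.pt τ' (ψ ≫ g) (by rw [← Category.assoc, h, hg]) :=
  Subtype.ext (map_comp_ptOf Z.hU ψ g)

theorem pt_congr {R : CommRingCat.{u}} (τ : CommRingCat.of K ⟶ R) {ψ ψ' : Γ(A, Z.U) ⟶ R}
    (h : Z.κ ≫ ψ = τ) (e : ψ = ψ') : Z.pt τ ψ h = Z.pt τ ψ' (e ▸ h) := by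
  subst e; rfl

theorem ev_comp_κ : Z.ev.hom.comp Z.κ.hom = RingHom.id K := by
  have := congrArg CommRingCat.Hom.hom Z.κ_ev
  simpa using this

variable {R S : CommRingCat.{u}} (φ : R ⟶ S) (τ : CommRingCat.of K ⟶ R)

theorem mem_kerRed_pt_iff (ψ : Γ(A, Z.U) ⟶ R) (h : Z.κ ≫ ψ = τ) :
    Z.pt τ ψ h ∈ kerRed L φ (Spec.map τ) ↔ IsInf Z.ev.hom τ.hom φ.hom ψ.hom := by
  rw [mem_kerRed_iff, pt_val, map_comp_ptOf, H746.one_val, ← Z.hev, Category.assoc,
    map_comp_ptOf, map_comp_ptOf]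
  constructor
  · intro e r
    have := congrArg (fun χ => χ.hom r) (ptOf_injective Z.hU e)
    simpa using this
  · intro e
    congr 1
    ext r
    simpa using e r

theorem exists_pt_of_mem_kerRed (hφ : Function.Surjective φ.hom)
    (hI : RingHom.ker φ.hom ^ 2 = ⊥) (x : SchemeHomOver (Spec.map τ) f)
    (hx : x ∈ kerRed L φ (Spec.map τ)) :
    ∃ (ψ : Γ(A, Z.U) ⟶ R) (h : Z.κ ≫ ψ = τ), x = Z.pt τ ψ h ∧
      IsInf Z.ev.hom τ.hom φ.hom ψ.hom := by
  have hx' := (mem_kerRed_iff L φ _ x).1 hx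
  have hland : ∀ q, (Spec.map φ ≫ x.1) q ∈ Z.U := by
    intro q
    rw [hx', H746.one_val, ← Z.hev, Category.assoc, map_comp_ptOf, map_comp_ptOf]
    exact ptOf_mem Z.hU _ q
  obtain ⟨ψ, hψ⟩ := exists_eq_ptOf_of_thickening Z.hU φ hφ hI x.1 hland
  have h : Z.κ ≫ ψ = τ := by
    apply Spec.map_injective
    rw [← Z.ptOf_comp_f, ← hψ]
    exact x.2
  have hxe : x = Z.pt τ ψ h := Subtype.ext hψ
  refine ⟨ψ, h, hxe, ?_⟩
  rw [← mem_kerRed_pt_iff Z φ τ ψ h, ← hxe]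
  exact hx

/-- Naturality of the group law for chart points. -/
theorem comp_mul {R' : CommRingCat.{u}} (g : R ⟶ R') (τ' : CommRingCat.of K ⟶ R')
    (hg : τ ≫ g = τ') (x y : SchemeHomOver (Spec.map τ) f) :
    schemeHomOverComp (Spec.map g) (by rw [← Spec.map_comp, hg]) (L.mul (Spec.map τ) x y) =
      L.mul (Spec.map τ')
        (schemeHomOverComp (Spec.map g) (by rw [← Spec.map_comp, hg]) x)
        (schemeHomOverComp (Spec.map g) (by rw [← Spec.map_comp, hg]) y) :=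
  L.mul_natural _ _ _ _ x y

/-- **The group law on infinitesimal chart points is the "sum".** -/
theorem mul_pt (hsq : SqZero φ.hom) (ψ₁ ψ₂ : Γ(A, Z.U) ⟶ R) (h₁ : Z.κ ≫ ψ₁ = τ)
    (h₂ : Z.κ ≫ ψ₂ = τ) (i₁ : IsInf Z.ev.hom τ.hom φ.hom ψ₁.hom)
    (i₂ : IsInf Z.ev.hom τ.hom φ.hom ψ₂.hom) :
    ∃ h : Z.κ ≫ CommRingCat.ofHom (addHom hsq ψ₁.hom ψ₂.hom i₁ i₂) = τ,
      L.mul (Spec.map τ) (Z.pt τ ψ₁ h₁) (Z.pt τ ψ₂ h₂) =
        Z.pt τ (CommRingCat.ofHom (addHom hsq ψ₁.hom ψ₂.hom i₁ i₂)) h := by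
  have hκ₁ : ψ₁.hom.comp Z.κ.hom = τ.hom := by
    have := congrArg CommRingCat.Hom.hom h₁; simpa using this
  have hκ₂ : ψ₂.hom.comp Z.κ.hom = τ.hom := by
    have := congrArg CommRingCat.Hom.hom h₂; simpa using this
  have hκc : (τ.hom.comp Z.ev.hom).comp Z.κ.hom = τ.hom := by
    rw [RingHom.comp_assoc, Z.ev_comp_κ, RingHom.comp_id]
  have hadd : Z.κ ≫ CommRingCat.ofHom (addHom hsq ψ₁.hom ψ₂.hom i₁ i₂) = τ := by
    apply CommRingCat.hom_ext
    simpa using addHom_comp_of_comp Z.ev_comp_κ hsq ψ₁.hom ψ₂.hom i₁ i₂ hκ₁ hκ₂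
  refine ⟨hadd, ?_⟩
  -- the auxiliary ring and its maps
  let T : CommRingCat.{u} := CommRingCat.of (Aux τ.hom φ.hom)
  let τT : CommRingCat.of K ⟶ T := CommRingCat.ofHom (auxStr τ.hom φ.hom)
  let fstT : T ⟶ CommRingCat.of K := CommRingCat.ofHom (auxFst τ.hom φ.hom)
  let P₁ : T ⟶ R := CommRingCat.ofHom (auxP₁ τ.hom φ.hom)
  let P₂ : T ⟶ R := CommRingCat.ofHom (auxP₂ τ.hom φ.hom)
  let Sg : T ⟶ R := CommRingCat.ofHom (auxSum τ.hom φ.hom hsq)
  have ic : IsInf Z.ev.hom τ.hom φ.hom (τ.hom.comp Z.ev.hom) := isInf_const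
  let p₁ : Γ(A, Z.U) ⟶ T := CommRingCat.ofHom (auxMk ψ₁.hom (τ.hom.comp Z.ev.hom) i₁ ic)
  let p₂ : Γ(A, Z.U) ⟶ T := CommRingCat.ofHom (auxMk (τ.hom.comp Z.ev.hom) ψ₂.hom ic i₂)
  let p₁₂ : Γ(A, Z.U) ⟶ T := CommRingCat.ofHom (auxMk ψ₁.hom ψ₂.hom i₁ i₂)
  have hp₁ : Z.κ ≫ p₁ = τT := by
    apply CommRingCat.hom_ext
    simpa [p₁, τT] using auxMk_comp Z.ev_comp_κ ψ₁.hom (τ.hom.comp Z.ev.hom) i₁ ic hκ₁ hκc
  have hp₂ : Z.κ ≫ p₂ = τT := by
    apply CommRingCat.hom_ext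
    simpa [p₂, τT] using auxMk_comp Z.ev_comp_κ (τ.hom.comp Z.ev.hom) ψ₂.hom ic i₂ hκc hκ₂
  have hτP₁ : τT ≫ P₁ = τ := by apply CommRingCat.hom_ext; rfl
  have hτP₂ : τT ≫ P₂ = τ := by apply CommRingCat.hom_ext; rfl
  have hτS : τT ≫ Sg = τ := by
    apply CommRingCat.hom_ext
    simpa [τT, Sg] using auxSum_auxStr (τ := τ.hom) hsq
  have hsurj : Function.Surjective fstT.hom := auxFst_surjective
  have hsqT : SqZero fstT.hom := auxFst_sqZero hsq
  have hIT : RingHom.ker fstT.hom ^ 2 = ⊥ := by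
    rw [eq_bot_iff, pow_two, Ideal.mul_le]
    intro a ha b hb
    rw [Ideal.mem_bot]
    exact hsqT a b ((RingHom.mem_ker).1 ha) ((RingHom.mem_ker).1 hb)
  -- the product of the universal pair
  set Q := L.mul (Spec.map τT) (Z.pt τT p₁ hp₁) (Z.pt τT p₂ hp₂) with hQ
  have hinf₁ : IsInf Z.ev.hom τT.hom fstT.hom p₁.hom := fun _ => rfl
  have hinf₂ : IsInf Z.ev.hom τT.hom fstT.hom p₂.hom := fun _ => rfl
  have hQker : Q ∈ kerRed L fstT (Spec.map τT) := by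
    have e₁ := (Z.mem_kerRed_pt_iff fstT τT p₁ hp₁).2 hinf₁
    have e₂ := (Z.mem_kerRed_pt_iff fstT τT p₂ hp₂).2 hinf₂
    change schemeHomOverComp (Spec.map fstT) rfl Q = _
    rw [hQ, L.mul_natural _ _ (Spec.map fstT) rfl]
    change schemeHomOverComp (Spec.map fstT) rfl _ = _ at e₁ e₂
    rw [e₁, e₂, L.one_mul]
  obtain ⟨ψQ, hψQ, hQe, hQinf⟩ := Z.exists_pt_of_mem_kerRed fstT τT hsurj hIT Q hQker
  -- the two projections
  have hπ₁ : ψQ ≫ P₁ = ψ₁ := by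
    have e := comp_mul (L := L) τT P₁ τ hτP₁ (Z.pt τT p₁ hp₁) (Z.pt τT p₂ hp₂)
    rw [← hQ, hQe, Z.comp_pt τT ψQ hψQ P₁ τ hτP₁, Z.comp_pt τT p₁ hp₁ P₁ τ hτP₁,
      Z.comp_pt τT p₂ hp₂ P₁ τ hτP₁] at e
    have e₂ : Z.pt τ (p₂ ≫ P₁) (by rw [← Category.assoc, hp₂, hτP₁]) = L.one (Spec.map τ) := by
      rw [Z.one_eq τ]; exact Z.pt_congr τ _ (by apply CommRingCat.hom_ext; rfl)
    rw [e₂, L.mul_one] at e
    have := Z.pt_injective τ e
    rw [this]; apply CommRingCat.hom_ext; rfl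
  have hπ₂ : ψQ ≫ P₂ = ψ₂ := by
    have e := comp_mul (L := L) τT P₂ τ hτP₂ (Z.pt τT p₁ hp₁) (Z.pt τT p₂ hp₂)
    rw [← hQ, hQe, Z.comp_pt τT ψQ hψQ P₂ τ hτP₂, Z.comp_pt τT p₁ hp₁ P₂ τ hτP₂,
      Z.comp_pt τT p₂ hp₂ P₂ τ hτP₂] at e
    have e₁ : Z.pt τ (p₁ ≫ P₂) (by rw [← Category.assoc, hp₁, hτP₂]) = L.one (Spec.map τ) := by
      rw [Z.one_eq τ]; exact Z.pt_congr τ _ (by apply CommRingCat.hom_ext; rfl)
    rw [e₁, L.one_mul] at e
    have := Z.pt_injective τ e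
    rw [this]; apply CommRingCat.hom_ext; rfl
  have hψQeq : ψQ = p₁₂ := by
    apply CommRingCat.hom_ext
    apply aux_hom_ext
    · ext r
      exact hQinf r
    · have := congrArg CommRingCat.Hom.hom hπ₁
      simpa [P₁, p₁₂] using this
    · have := congrArg CommRingCat.Hom.hom hπ₂
      simpa [P₂, p₁₂] using this
  -- apply the sum map
  have e := comp_mul (L := L) τT Sg τ hτS (Z.pt τT p₁ hp₁) (Z.pt τT p₂ hp₂)
  rw [← hQ, hQe, Z.comp_pt τT ψQ hψQ Sg τ hτS, Z.comp_pt τT p₁ hp₁ Sg τ hτS,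
    Z.comp_pt τT p₂ hp₂ Sg τ hτS] at e
  have e₁ : Z.pt τ (p₁ ≫ Sg) (by rw [← Category.assoc, hp₁, hτS]) = Z.pt τ ψ₁ h₁ := by
    refine (Z.pt_congr τ _ ?_)
    apply CommRingCat.hom_ext
    exact addHom_const_right hsq ψ₁.hom i₁
  have e₂ : Z.pt τ (p₂ ≫ Sg) (by rw [← Category.assoc, hp₂, hτS]) = Z.pt τ ψ₂ h₂ := by
    refine (Z.pt_congr τ _ ?_)
    apply CommRingCat.hom_ext
    exact addHom_const_left hsq ψ₂.hom i₂
  rw [e₁, e₂] at e
  rw [← e]
  refine Z.pt_congr τ _ ?_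
  rw [hψQeq]
  apply CommRingCat.hom_ext
  rfl

/-- `n • x` on infinitesimal chart points is scaling by `n`. -/
theorem nsmul_pt (hsq : SqZero φ.hom) (ψ : Γ(A, Z.U) ⟶ R) (h : Z.κ ≫ ψ = τ)
    (i : IsInf Z.ev.hom τ.hom φ.hom ψ.hom) (n : ℕ) :
    ∃ h' : Z.κ ≫ CommRingCat.ofHom (scaleHom hsq ψ.hom i (n : K)) = τ,
      L.nsmul (Spec.map τ) n (Z.pt τ ψ h) =
        Z.pt τ (CommRingCat.ofHom (scaleHom hsq ψ.hom i (n : K))) h' := by
  have hκ : ψ.hom.comp Z.κ.hom = τ.hom := by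
    have := congrArg CommRingCat.Hom.hom h; simpa using this
  have hcomp : ∀ c : K, Z.κ ≫ CommRingCat.ofHom (scaleHom hsq ψ.hom i c) = τ := fun c => by
    apply CommRingCat.hom_ext
    simpa using scaleHom_comp_of_comp Z.ev_comp_κ hsq ψ.hom i hκ c
  refine ⟨hcomp _, ?_⟩
  induction n with
  | zero =>
    rw [RelativeGroupLaw.nsmul_zero, Z.one_eq τ]
    refine Z.pt_congr τ _ ?_
    apply CommRingCat.hom_ext
    simp only [Nat.cast_zero, scaleHom_zero]
    rfl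
  | succ n ih =>
    rw [RelativeGroupLaw.nsmul_succ, ih]
    obtain ⟨h', e⟩ := Z.mul_pt φ τ hsq _ ψ (hcomp n) h
      (isInf_scaleHom hsq ψ.hom i (n : K)) i
    rw [e]
    refine Z.pt_congr τ _ ?_
    apply CommRingCat.hom_ext
    simp only [CommRingCat.hom_ofHom, Nat.cast_succ]
    exact addHom_scaleHom_self hsq ψ.hom i (n : K)

end ZeroChart

/-- **S3-KEY.** For a square-zero thickening `Spec S ⟶ Spec R` the kernel of reduction
`A(R) → A(S)` is uniquely `n`-divisible, for `n` invertible in `K`. -/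
theorem kerRed_unique_div (L : RelativeGroupLaw K f) (n : ℕ) (hn : (n : K) ≠ 0)
    {R S : CommRingCat.{u}} (φ : R ⟶ S)
    (hφ : Function.Surjective φ.hom) (hI : RingHom.ker φ.hom ^ 2 = ⊥)
    (t : Spec R ⟶ Spec (CommRingCat.of K)) (x : SchemeHomOver t f) (hx : x ∈ kerRed L φ t) :
    ∃! y : SchemeHomOver t f, y ∈ kerRed L φ t ∧ L.nsmul t n y = x := by
  obtain ⟨Z⟩ := exists_zeroChart L
  obtain ⟨τ, rfl⟩ := Spec.map_surjective t
  have hsq : SqZero φ.hom := sqZero_of_ker_sq hI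
  obtain ⟨ψ, h, rfl, i⟩ := Z.exists_pt_of_mem_kerRed φ τ hφ hI x hx
  have hκ : ψ.hom.comp Z.κ.hom = τ.hom := by
    have := congrArg CommRingCat.Hom.hom h; simpa using this
  set c : K := (n : K)⁻¹ with hc
  have hy : Z.κ ≫ CommRingCat.ofHom (scaleHom hsq ψ.hom i c) = τ := by
    apply CommRingCat.hom_ext
    simpa using scaleHom_comp_of_comp Z.ev_comp_κ hsq ψ.hom i hκ c
  have iy : IsInf Z.ev.hom τ.hom φ.hom (CommRingCat.ofHom (scaleHom hsq ψ.hom i c)).hom :=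
    isInf_scaleHom hsq ψ.hom i c
  refine ⟨Z.pt τ _ hy, ⟨(Z.mem_kerRed_pt_iff φ τ _ hy).2 iy, ?_⟩, ?_⟩
  · obtain ⟨h', e⟩ := Z.nsmul_pt φ τ hsq _ hy iy n
    rw [e]
    refine Z.pt_congr τ _ ?_
    apply CommRingCat.hom_ext
    simp only [CommRingCat.hom_ofHom]
    rw [scaleHom_scaleHom, hc, mul_inv_cancel₀ hn, scaleHom_one]
  · rintro y ⟨hyk, hyn⟩
    obtain ⟨ψ', h', rfl, i'⟩ := Z.exists_pt_of_mem_kerRed φ τ hφ hI y hyk
    obtain ⟨h'', e⟩ := Z.nsmul_pt φ τ hsq ψ' h' i' n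
    rw [e] at hyn
    have e₂ := congrArg CommRingCat.Hom.hom (Z.pt_injective τ hyn)
    simp only [CommRingCat.hom_ofHom] at e₂
    refine Z.pt_congr τ _ ?_
    apply CommRingCat.hom_ext
    simp only [CommRingCat.hom_ofHom]
    have e₃ := scaleHom_congr hsq (isInf_scaleHom hsq ψ'.hom i' (n : K)) i e₂ c
    rw [scaleHom_scaleHom, hc, inv_mul_cancel₀ hn, scaleHom_one] at e₃
    exact e₃

end Group

end


/-! # Part 3: `[n]` is finite etale -/

noncomputable section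

/-! ## Abstract group theory -/

section Abstract

variable {G G' : Type*} [CommGroup G] [Group G'] (r : G → G') (hr1 : r 1 = 1)
  (hrm : ∀ x y, r (x * y) = r x * r y) (n : ℕ)
  (hdiv : ∀ x, r x = 1 → ∃! y, r y = 1 ∧ y ^ n = x)

include hr1 hrm

omit hdiv in
theorem abstract_inv (x : G) : r x⁻¹ = (r x)⁻¹ := by
  apply eq_inv_of_mul_eq_one_left
  rw [← hrm, inv_mul_cancel, hr1]

include hdiv

theorem abstract_unramified {x₁ x₂ : G} (hr : r x₁ = r x₂) (hp : x₁ ^ n = x₂ ^ n) : x₁ = x₂ := by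
  have hd : r (x₁ * x₂⁻¹) = 1 := by
    rw [hrm, abstract_inv r hr1 hrm, hr, mul_inv_cancel]
  have hdn : (x₁ * x₂⁻¹) ^ n = 1 := by
    rw [mul_pow, inv_pow, hp, mul_inv_cancel]
  obtain ⟨y, -, hy⟩ := hdiv 1 hr1
  have e₁ := hy (x₁ * x₂⁻¹) ⟨hd, hdn⟩
  have e₂ := hy 1 ⟨hr1, one_pow n⟩
  rw [← e₂] at e₁
  exact mul_inv_eq_one.1 e₁

theorem abstract_smooth (x₀ h : G) (hr : r (x₀ ^ n) = r h) : ∃ g, r g = r x₀ ∧ g ^ n = h := by
  have hd : r (h * (x₀ ^ n)⁻¹) = 1 := by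
    rw [hrm, abstract_inv r hr1 hrm, hr, mul_inv_cancel]
  obtain ⟨ε, ⟨hε1, hεn⟩, -⟩ := hdiv _ hd
  refine ⟨x₀ * ε, by rw [hrm, hε1, mul_one], ?_⟩
  rw [mul_pow, hεn, mul_comm h, mul_inv_cancel_left]

end Abstract

/-! ## The groups of points -/

section Points

variable {K : Type u} [Field K] {A : Scheme.{u}} {f : A ⟶ Spec (CommRingCat.of K)}
  (L : RelativeGroupLaw K f)

/-- The commutative group of `T`-valued points. -/
@[reducible] def ptCommGroup (hc : L.IsCommutative) {T : Scheme.{u}}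
    (t : T ⟶ Spec (CommRingCat.of K)) :
    CommGroup (SchemeHomOver t f) :=
  { L.pointGroup t with mul_comm := hc t }

/-- Unramifiedness and smoothness of `[n]` on points of a square-zero thickening. -/
theorem points_thickening (hc : L.IsCommutative) (n : ℕ) (hn : (n : K) ≠ 0)
    {R S : CommRingCat.{u}} (φ : R ⟶ S)
    (hφ : Function.Surjective φ.hom) (hI : RingHom.ker φ.hom ^ 2 = ⊥)
    (t : Spec R ⟶ Spec (CommRingCat.of K)) :
    (∀ x₁ x₂ : SchemeHomOver t f, Spec.map φ ≫ x₁.1 = Spec.map φ ≫ x₂.1 →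
      L.nsmul t n x₁ = L.nsmul t n x₂ → x₁ = x₂) ∧
    (∀ x₀ h : SchemeHomOver t f, Spec.map φ ≫ (L.nsmul t n x₀).1 = Spec.map φ ≫ h.1 →
      ∃ g : SchemeHomOver t f, Spec.map φ ≫ g.1 = Spec.map φ ≫ x₀.1 ∧ L.nsmul t n g = h) := by
  let _ : CommGroup (SchemeHomOver t f) := ptCommGroup L hc t
  let _ : Group (SchemeHomOver (Spec.map φ ≫ t) f) := L.pointGroup (Spec.map φ ≫ t)
  let r : SchemeHomOver t f → SchemeHomOver (Spec.map φ ≫ t) f :=
    schemeHomOverComp (Spec.map φ) rfl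
  have hr1 : r 1 = 1 := L.one_natural _ _ _ rfl
  have hrm : ∀ x y, r (x * y) = r x * r y := fun x y => L.mul_natural _ _ _ rfl x y
  have hpow : ∀ (k : ℕ) (x : SchemeHomOver t f), L.nsmul t k x = x ^ k := by
    intro k x
    induction k with
    | zero => rw [pow_zero]; rfl
    | succ k ih => rw [pow_succ, ← ih]; rfl
  have hdiv : ∀ x, r x = 1 → ∃! y, r y = 1 ∧ y ^ n = x := by
    intro x hx
    obtain ⟨y, ⟨hy1, hyn⟩, hyu⟩ := kerRed_unique_div L n hn φ hφ hI t x hx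
    refine ⟨y, ⟨hy1, by rw [← hpow]; exact hyn⟩, ?_⟩
    rintro y' ⟨hy'1, hy'n⟩
    exact hyu y' ⟨hy'1, by rw [hpow]; exact hy'n⟩
  have hr : ∀ x y : SchemeHomOver t f, Spec.map φ ≫ x.1 = Spec.map φ ≫ y.1 ↔ r x = r y :=
    fun x y => ⟨fun h => Subtype.ext h, fun h => congrArg Subtype.val h⟩
  constructor
  · intro x₁ x₂ h₁ h₂
    rw [hpow, hpow] at h₂
    exact abstract_unramified r hr1 hrm n hdiv ((hr _ _).1 h₁) h₂
  · intro x₀ h h₁
    rw [hpow, hr] at h₁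
    obtain ⟨g, hg1, hgn⟩ := abstract_smooth r hr1 hrm n hdiv x₀ h h₁
    exact ⟨g, (hr _ _).2 hg1, by rw [hpow]; exact hgn⟩

/-- S3-FU: `[n]` is formally unramified. -/
theorem formallyUnramified_schemeNsmul (hc : L.IsCommutative) (n : ℕ) (hn : (n : K) ≠ 0) :
    FormallyUnramified (L.schemeNsmul n) := by
  refine FormallyUnramified.of_hom_ext _ fun R S φ hφ hI g₁ g₂ h₁ h₂ => ?_
  have hg₂ : g₂ ≫ f = g₁ ≫ f := by
    rw [← L.schemeNsmul_over n, ← Category.assoc, ← Category.assoc, h₂]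
  let x₁ : SchemeHomOver (g₁ ≫ f) f := ⟨g₁, rfl⟩
  let x₂ : SchemeHomOver (g₁ ≫ f) f := ⟨g₂, hg₂⟩
  have key := (points_thickening L hc n hn φ hφ hI (g₁ ≫ f)).1 x₁ x₂ h₁ (by
    apply Subtype.ext
    rw [← comp_schemeNsmul, ← comp_schemeNsmul]
    exact h₂)
  exact congrArg Subtype.val key

end Points

/-! ## `[n]` is smooth, etale, finite -/

section Etale

variable {K : Type u} [Field K] {A : Scheme.{u}} {f : A ⟶ Spec (CommRingCat.of K)}

/-- The `K`-algebra structure of the sections over an affine open. -/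
def kStr {V : A.Opens} (hV : IsAffineOpen V) (f : A ⟶ Spec (CommRingCat.of K)) :
    CommRingCat.of K ⟶ Γ(A, V) :=
  Spec.preimage (hV.fromSpec ≫ f)

theorem map_kStr {V : A.Opens} (hV : IsAffineOpen V) :
    Spec.map (kStr hV f) = hV.fromSpec ≫ f := Spec.map_preimage _

theorem ptOf_comp_str {V : A.Opens} (hV : IsAffineOpen V) {R : CommRingCat.{u}}
    (ψ : Γ(A, V) ⟶ R) : ptOf hV ψ ≫ f = Spec.map (kStr hV f ≫ ψ) := by
  rw [ptOf, Category.assoc, ← map_kStr, ← Spec.map_comp]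

theorem ptOf_comp_hom (φ : A ⟶ A) {U V : A.Opens} (hU : IsAffineOpen U) (hV : IsAffineOpen V)
    (e : V ≤ φ ⁻¹ᵁ U) {R : CommRingCat.{u}} (ψ : Γ(A, V) ⟶ R) :
    ptOf hV ψ ≫ φ = ptOf hU (φ.appLE U V e ≫ ψ) := by
  rw [ptOf, ptOf, Category.assoc, ← hU.SpecMap_appLE_fromSpec φ hV e, Spec.map_comp,
    Category.assoc]

theorem kStr_comp_appLE (φ : A ⟶ A) (hφ : φ ≫ f = f) {U V : A.Opens} (hU : IsAffineOpen U)
    (hV : IsAffineOpen V) (e : V ≤ φ ⁻¹ᵁ U) : kStr hU f ≫ φ.appLE U V e = kStr hV f := by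
  apply Spec.map_injective
  rw [Spec.map_comp, map_kStr, ← Category.assoc, hU.SpecMap_appLE_fromSpec φ hV e,
    Category.assoc, hφ, map_kStr]

theorem kStr_smooth [Smooth f] {V : A.Opens} (hV : IsAffineOpen V) : (kStr hV f).hom.Smooth := by
  rw [← HasRingHomProperty.Spec_iff (P := @Smooth), map_kStr]
  infer_instance

/-- An endomorphism over `K` of a scheme locally of finite presentation over `K` is locally of
finite presentation. -/
theorem locallyOfFinitePresentation_of_over (φ : A ⟶ A) (hφ : φ ≫ f = f)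
    [LocallyOfFinitePresentation f] : LocallyOfFinitePresentation φ := by
  rw [locallyOfFinitePresentation_iff]
  intro U hU V hV e
  have h1 := kStr_comp_appLE φ hφ hU hV e
  have h2 : (kStr hV f).hom.FinitePresentation := by
    rw [← HasRingHomProperty.Spec_iff (P := @LocallyOfFinitePresentation), map_kStr]
    infer_instance
  have h3 : (kStr hU f).hom.FiniteType := by
    rw [← HasRingHomProperty.Spec_iff (P := @LocallyOfFiniteType), map_kStr]
    infer_instance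
  refine RingHom.FinitePresentation.of_comp_finiteType (kStr hU f).hom ?_ h3
  rw [← CommRingCat.hom_comp, h1]
  exact h2

variable (L : RelativeGroupLaw K f)

/-- The ring maps of `[n]` on affine opens are formally smooth. -/
theorem formallySmooth_appLE (hc : L.IsCommutative) [Smooth f] (n : ℕ) (hn : (n : K) ≠ 0)
    {U V : A.Opens} (hU : IsAffineOpen U) (hV : IsAffineOpen V)
    (e : V ≤ (L.schemeNsmul n) ⁻¹ᵁ U) :
    ((L.schemeNsmul n).appLE U V e).hom.FormallySmooth := by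
  set a := (L.schemeNsmul n).appLE U V e with ha
  let _ : Algebra Γ(A, U) Γ(A, V) := a.hom.toAlgebra
  show Algebra.FormallySmooth Γ(A, U) Γ(A, V)
  refine Algebra.FormallySmooth.of_comp_surjective ?_
  intro B _ _ I hI gbar
  -- the rings and maps as objects of `CommRingCat`
  let RB : CommRingCat.{u} := CommRingCat.of B
  let SB : CommRingCat.{u} := CommRingCat.of (B ⧸ I)
  let q : RB ⟶ SB := CommRingCat.ofHom (Ideal.Quotient.mk I)
  have hq : Function.Surjective q.hom := Ideal.Quotient.mk_surjective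
  have hqI : RingHom.ker q.hom ^ 2 = ⊥ := by
    have : RingHom.ker q.hom = I := Ideal.mk_ker
    rw [this, hI]
  let β : Γ(A, U) ⟶ RB := CommRingCat.ofHom (algebraMap Γ(A, U) B)
  let g' : Γ(A, V) ⟶ SB := CommRingCat.ofHom gbar.toRingHom
  have hcomm : a ≫ g' = β ≫ q := by
    apply CommRingCat.hom_ext
    ext p
    exact gbar.commutes p
  have hkV : kStr hU f ≫ a = kStr hV f := kStr_comp_appLE _ (L.schemeNsmul_over n) hU hV e
  -- step 1: lift over `K`, using smoothness of `A`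
  let τ : CommRingCat.of K ⟶ RB := kStr hU f ≫ β
  let _ : Algebra K Γ(A, V) := (kStr hV f).hom.toAlgebra
  let _ : Algebra K B := τ.hom.toAlgebra
  have : Algebra.FormallySmooth K Γ(A, V) := (kStr_smooth hV).formallySmooth
  let gK : Γ(A, V) →ₐ[K] B ⧸ I :=
    { gbar.toRingHom with
      commutes' := fun c => by
        have e₁ := congrArg (fun χ => χ.hom c) hkV
        have e₂ := congrArg (fun χ => χ.hom (kStr hU f c)) hcomm
        simp only [CommRingCat.hom_comp, RingHom.coe_comp, Function.comp_apply] at e₁ e₂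
        change gbar (kStr hV f c) = _
        rw [← e₁]
        exact e₂ }
  obtain ⟨g₀', hg₀'⟩ := Algebra.FormallySmooth.comp_surjective K Γ(A, V) I hI gK
  let g₀ : Γ(A, V) ⟶ RB := CommRingCat.ofHom g₀'.toRingHom
  have hg₀q : g₀ ≫ q = g' := by
    apply CommRingCat.hom_ext
    ext p
    exact congrArg (fun χ => χ p) hg₀'
  have hg₀K : kStr hV f ≫ g₀ = τ := by
    apply CommRingCat.hom_ext
    ext c
    exact g₀'.commutes c
  -- step 2: correct the lift inside the group of points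
  let x₀ : SchemeHomOver (Spec.map τ) f := ⟨ptOf hV g₀, by rw [ptOf_comp_str, hg₀K]⟩
  let h : SchemeHomOver (Spec.map τ) f := ⟨ptOf hU β, by rw [ptOf_comp_str]⟩
  have hyp : Spec.map q ≫ (L.nsmul (Spec.map τ) n x₀).1 = Spec.map q ≫ h.1 := by
    rw [← comp_schemeNsmul]
    change Spec.map q ≫ ptOf hV g₀ ≫ L.schemeNsmul n = Spec.map q ≫ ptOf hU β
    rw [ptOf_comp_hom _ hU hV e, map_comp_ptOf, map_comp_ptOf, Category.assoc, hg₀q, ← ha, hcomm]
  obtain ⟨g, hg1, hgn⟩ := (points_thickening L hc n hn q hq hqI (Spec.map τ)).2 x₀ h hyp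
  -- step 3: back to rings
  have hred : Spec.map q ≫ g.1 = ptOf hV g' := by
    rw [hg1]
    change Spec.map q ≫ ptOf hV g₀ = _
    rw [map_comp_ptOf, hg₀q]
  obtain ⟨γ, hγ⟩ := exists_eq_ptOf_of_thickening hV q hq hqI g.1 (fun p => by
    rw [hred]; exact ptOf_mem hV _ p)
  have hγq : γ ≫ q = g' := by
    apply ptOf_injective hV
    rw [← map_comp_ptOf, ← hγ, hred]
  have hγa : a ≫ γ = β := by
    apply ptOf_injective hU
    rw [ha, ← ptOf_comp_hom _ hU hV e, ← hγ, comp_schemeNsmul, hgn]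
  refine ⟨{ γ.hom with commutes' := fun p => congrArg (fun χ => χ.hom p) hγa }, ?_⟩
  ext x
  exact congrArg (fun χ => χ.hom x) hγq

/-- `[n]` is smooth. -/
theorem smooth_schemeNsmul (hc : L.IsCommutative) (hsm : Smooth f) (n : ℕ) (hn : (n : K) ≠ 0) :
    Smooth (L.schemeNsmul n) := by
  have := locallyOfFinitePresentation_of_over (L.schemeNsmul n) (L.schemeNsmul_over n)
  rw [smooth_iff]
  intro U hU V hV e
  rw [RingHom.smooth_def]
  exact ⟨formallySmooth_appLE L hc n hn hU hV e,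
    (L.schemeNsmul n).finitePresentation_appLE hU hV e⟩

/-- **S3.** `[n]` is etale. -/
theorem etale_schemeNsmul (hc : L.IsCommutative) (hsm : Smooth f) (n : ℕ) (hn : (n : K) ≠ 0) :
    Etale (L.schemeNsmul n) := by
  have := smooth_schemeNsmul L hc hsm n hn
  have := formallyUnramified_schemeNsmul L hc n hn
  exact Etale.of_formallyUnramified_of_flat _

/-- A formally unramified morphism locally of finite type is locally quasi-finite. -/
theorem locallyQuasiFinite_of_formallyUnramified {X Y : Scheme.{u}} (φ : X ⟶ Y)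
    [FormallyUnramified φ] [LocallyOfFiniteType φ] : LocallyQuasiFinite φ := by
  rw [locallyQuasiFinite_iff]
  intro U hU V hV e
  have h1 := φ.formallyUnramified_appLE hU hV e
  have h2 := φ.finiteType_appLE hU hV e
  algebraize [(φ.appLE U V e).hom]
  have : Algebra.EssFiniteType Γ(Y, U) Γ(X, V) := inferInstance
  exact (inferInstance : Algebra.QuasiFinite Γ(Y, U) Γ(X, V))

/-- **S4.** `[n]` is finite. -/
theorem isFinite_schemeNsmul (hpr : IsProper f) (n : ℕ) (het : Etale (L.schemeNsmul n)) :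
    IsFinite (L.schemeNsmul n) := by
  have h1 : IsProper (L.schemeNsmul n ≫ f) := by rw [L.schemeNsmul_over]; exact hpr
  have h2 : IsProper (L.schemeNsmul n) := IsProper.of_comp _ f
  have h3 : LocallyQuasiFinite (L.schemeNsmul n) := locallyQuasiFinite_of_formallyUnramified _
  exact IsFinite.of_isProper_of_locallyQuasiFinite _

end Etale

end

end Fermat.Agent.S26.Soft.H746
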