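import Fermat.Agent.S26.H147.SoftGlue
import Fermat.Agent.S26.Soft.H746.Etale

/-!
# Row S26, block SOFT: `Stmt.Soft K` (helper746, sub-architect of SOFT)

`[n]` is finite etale and `#A(K)[n]` is its rank, for `n` invertible in `K`.
Leaf S3 (`[n]` etale) = `H746.etale_schemeNsmul`; leaves S4, S5, S6 and the glue = helper147.
-/

set_option autoImplicit false
universe u

open CategoryTheory AlgebraicGeometry NeronModelInfra GoodReductionJacobian

namespace Fermat.Agent.S26.Soft.H746

/-- **Block SOFT.** -/
theorem soft (K : Type u) [Field K] [IsAlgClosed K] : Stmt.Soft K :=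
  H147.soft_of_etale K fun X n hn =>
    etale_schemeNsmul X.law X.comm X.bundle.smooth n hn

end Fermat.Agent.S26.Soft.H746
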